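import Fermat.Agent.S16.TraceCases.Bridge
import Fermat.Agent.S16.NoConst

/-!
# T16 / trace cases: the three `NoConstInt` cases (helper32)

* `noConstInt_three_one`  : `p ≡ 1 mod 3` ⟹ `NoConstInt p 3 1`   (U3a)
* `noConstInt_two_two`    : `p ≡ 1 mod 4` ⟹ `NoConstInt p 2 2`   (U2a)
* `noConstInt_two_three`  : `8 ∤ p + 1`, `p ≠ 2` ⟹ `NoConstInt p 2 3`   (U2b for `p ≡ 3 mod 8`)
-/

set_option autoImplicit false

open UpperHalfPlane ModularForm ModularFormClass CongruenceSubgroup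
open scoped MatrixGroups ModularForm Manifold

namespace Fermat.Agent.S16.TraceCases

open Fermat.Agent.S16.Conj

variable {p : ℕ} [Fact p.Prime]

/-- From the `NoConstInt` data to an integral power series. -/
theorem exists_series (l r : ℕ) (G : ModularForm (Trace.lvl p) 2) (c₀ : ℤ)
    (h0 : (qExpansion 1 G).coeff 0 = (c₀ : ℂ))
    (hk : ∀ k : ℕ, 1 ≤ k → ∃ c : ℤ, (qExpansion 1 G).coeff k = (l : ℂ) ^ r * (c : ℂ)) :
    ∃ g : PowerSeries ℤ, qExpansion 1 G = g.map (Int.castRingHom ℂ) ∧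
      PowerSeries.coeff 0 g = c₀ ∧ ∀ n : ℕ, 1 ≤ n → ((l : ℤ) ^ r) ∣ PowerSeries.coeff n g := by
  classical
  choose c hc using hk
  refine ⟨PowerSeries.mk fun n => if h : 1 ≤ n then (l : ℤ) ^ r * c n h else c₀, ?_, ?_, ?_⟩
  · ext n
    rw [PowerSeries.coeff_map, PowerSeries.coeff_mk]
    by_cases h : 1 ≤ n
    · rw [dif_pos h, hc n h]
      simp
    · have hn : n = 0 := by omega
      subst hn
      rw [dif_neg h, h0]
      simp
  · rw [PowerSeries.coeff_mk, dif_neg (by omega)]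
  · intro n hn
    rw [PowerSeries.coeff_mk, dif_pos hn]
    exact Dvd.intro _ rfl

/-- **U3a**: `ℓ = 3`, `p ≡ 1 mod 3`. -/
theorem noConstInt_three_one (hp3 : p % 3 = 1) : NoConstInt p 3 1 := by
  rintro ⟨G, ⟨c₀, hc₀, h0⟩, hk⟩
  obtain ⟨g, hg, hg0, hgn⟩ := exists_series 3 1 G c₀ h0 hk
  obtain ⟨gs, hT⟩ := exists_traceData G g hg
  refine false_of_three (Fact.out : p.Prime) hp3 hT c₀ (by exact_mod_cast hc₀) hg0 ?_
  intro n hn
  have := hgn n hn
  simpa using this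

/-- **U2a**: `ℓ = 2`, `p ≡ 1 mod 4`. -/
theorem noConstInt_two_two (hp4 : p % 4 = 1) : NoConstInt p 2 2 := by
  rintro ⟨G, ⟨c₀, hc₀, h0⟩, hk⟩
  obtain ⟨g, hg, hg0, hgn⟩ := exists_series 2 2 G c₀ h0 hk
  obtain ⟨gs, hT⟩ := exists_traceData G g hg
  have hodd : Odd c₀ := by
    rw [← Int.not_even_iff_odd, even_iff_two_dvd]
    exact_mod_cast hc₀
  refine false_of_four (Fact.out : p.Prime) hp4 hT c₀ hodd hg0 ?_
  intro n hn
  have := hgn n hn
  norm_num at this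
  exact this

/-- **U2b** for `8 ∤ p + 1` (in particular `p ≡ 3 mod 8`). -/
theorem noConstInt_two_three (hp2 : p ≠ 2) (hp8 : ¬ 8 ∣ p + 1) : NoConstInt p 2 3 := by
  rintro ⟨G, ⟨c₀, hc₀, h0⟩, hk⟩
  obtain ⟨g, hg, hg0, hgn⟩ := exists_series 2 3 G c₀ h0 hk
  obtain ⟨gs, hT⟩ := exists_traceData G g hg
  have hodd : Odd c₀ := by
    rw [← Int.not_even_iff_odd, even_iff_two_dvd]
    exact_mod_cast hc₀
  refine false_of_eight (Fact.out : p.Prime) hp2 hp8 hT c₀ hodd hg0 ?_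
  intro n hn
  have := hgn n hn
  norm_num at this
  exact this

/-- **U2b-3**: `ℓ = 2`, `p ≡ 3 mod 8`. -/
theorem noConstInt_two_three_of_mod (hp8 : p % 8 = 3) : NoConstInt p 2 3 :=
  noConstInt_two_three (by rintro rfl; omega) (by omega)

end Fermat.Agent.S16.TraceCases
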