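import Fermat.Agent.S16.TraceCases.Basic

/-!
# T16 / case `ℓ = 3`, `p ≡ 2 mod 3`: the Artin–Schreier core (helper32)

* `delta_eq_sub_cube_add`: from `E₄² = E₈` and `1728 Δ = E₄³ - E₆²` (as integer power series):
  `Δ = S - S³ + 3 W` with `S = ∑ σ₁(n) qⁿ`, i.e. `Δ ≡ S - S³ mod 3`.
* `false_of_AS`: if `S = q + ⋯` is a power series over a domain in which `2 ≠ 0`, then
  `(a S) (a S + κ)^m` (`a ≠ 0`) is not a polynomial in `S - S³`.

Mathlib only.
-/

set_option autoImplicit false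

namespace Fermat.Agent.S16.TraceCases

open PowerSeries Finset

section Injective

variable {k : Type*} [CommRing k]

theorem coeff_pow_of_lt (S : PowerSeries k) (h0 : PowerSeries.coeff 0 S = 0) (i j : ℕ)
    (hij : j < i) : PowerSeries.coeff j (S ^ i) = 0 := by
  have hS : S = (PowerSeries.mk fun n => PowerSeries.coeff (n + 1) S) * X := by
    have := PowerSeries.eq_shift_mul_X_add_const S
    rw [← PowerSeries.coeff_zero_eq_constantCoeff_apply, h0, map_zero, add_zero] at this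
    exact this
  rw [hS, mul_pow, PowerSeries.coeff_mul_X_pow', if_neg (by omega)]

theorem coeff_pow_self (S : PowerSeries k) (h0 : PowerSeries.coeff 0 S = 0)
    (h1 : PowerSeries.coeff 1 S = 1) (i : ℕ) : PowerSeries.coeff i (S ^ i) = 1 := by
  have hS : S = (PowerSeries.mk fun n => PowerSeries.coeff (n + 1) S) * X := by
    have := PowerSeries.eq_shift_mul_X_add_const S
    rw [← PowerSeries.coeff_zero_eq_constantCoeff_apply, h0, map_zero, add_zero] at this
    exact this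
  rw [hS, mul_pow, PowerSeries.coeff_mul_X_pow', if_pos le_rfl, Nat.sub_self,
    PowerSeries.coeff_zero_eq_constantCoeff, map_pow,
    ← PowerSeries.coeff_zero_eq_constantCoeff_apply, PowerSeries.coeff_mk, zero_add, h1, one_pow]

/-- `T ↦ S` is injective on polynomials when `S = q + ⋯`. -/
theorem aeval_injective_of_coeff (S : PowerSeries k) (h0 : PowerSeries.coeff 0 S = 0)
    (h1 : PowerSeries.coeff 1 S = 1) :
    Function.Injective (Polynomial.aeval S : Polynomial k →ₐ[k] PowerSeries k) := by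
  rw [injective_iff_map_eq_zero]
  intro f hf
  by_contra hne
  set j := f.natTrailingDegree with hj
  have hcj : f.coeff j ≠ 0 := by
    rw [hj]
    exact Polynomial.trailingCoeff_nonzero_iff_nonzero.mpr hne
  have key : PowerSeries.coeff j (Polynomial.aeval S f) = f.coeff j := by
    rw [Polynomial.aeval_eq_sum_range, map_sum]
    rw [Finset.sum_eq_single j]
    · rw [PowerSeries.coeff_smul, coeff_pow_self S h0 h1, smul_eq_mul, mul_one]
    · intro i _ hij
      rw [PowerSeries.coeff_smul]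
      rcases lt_or_gt_of_ne hij with h | h
      · have : f.coeff i = 0 := Polynomial.coeff_eq_zero_of_lt_natTrailingDegree (by rw [← hj]; exact h)
        rw [this, zero_smul]
      · rw [coeff_pow_of_lt S h0 i j h, smul_zero]
    · intro hnot
      exfalso
      apply hnot
      rw [Finset.mem_range]
      have := Polynomial.natTrailingDegree_le_natDegree (p := f)
      omega
  rw [hf, map_zero] at key
  exact hcj key.symm

/-- A polynomial in `S` which is also a polynomial in `S - S³` takes the same value at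
`0`, `1`, `-1`. -/
theorem eval_eq_of_aeval_eq (S : PowerSeries k) (h0 : PowerSeries.coeff 0 S = 0)
    (h1 : PowerSeries.coeff 1 S = 1) (Pol Q : Polynomial k)
    (h : Polynomial.aeval (S - S ^ 3) Pol = Polynomial.aeval S Q) :
    Q.eval 1 = Q.eval 0 ∧ Q.eval (-1) = Q.eval 0 := by
  have hcomp : Pol.comp (Polynomial.X - Polynomial.X ^ 3) = Q := by
    apply aeval_injective_of_coeff S h0 h1
    rw [Polynomial.aeval_comp, ← h]
    simp
  rw [← hcomp]
  have e : (-1 : k) - (-1) ^ 3 = 0 := by ring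
  simp [Polynomial.eval_comp, e]

theorem pow_eq_zero_iff_of_pos_aux [IsDomain k] {x : k} {m : ℕ} (h : x ^ m = 0) : x = 0 := by
  induction m with
  | zero => rw [pow_zero] at h; exact absurd h one_ne_zero
  | succ n ih =>
    rw [pow_succ] at h
    rcases mul_eq_zero.mp h with h' | h'
    · exact ih h'
    · exact h'

/-- **Artin–Schreier core**: `(a S)(a S + κ)^m` is not a polynomial in `S - S³`. -/
theorem false_of_AS [IsDomain k] (h2 : (2 : k) ≠ 0) (S : PowerSeries k)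
    (h0 : PowerSeries.coeff 0 S = 0) (h1 : PowerSeries.coeff 1 S = 1) (a κ : k) (ha : a ≠ 0)
    (m : ℕ) (Pol : Polynomial k)
    (h : Polynomial.aeval (S - S ^ 3) Pol = (C a * S) * (C a * S + C κ) ^ m) : False := by
  set Q : Polynomial k := (Polynomial.C a * Polynomial.X) *
    (Polynomial.C a * Polynomial.X + Polynomial.C κ) ^ m with hQ
  have hQS : Polynomial.aeval S Q = (C a * S) * (C a * S + C κ) ^ m := by
    simp [hQ, Polynomial.aeval_C]
  obtain ⟨e1, e2⟩ := eval_eq_of_aeval_eq S h0 h1 Pol Q (h.trans hQS.symm)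
  simp only [hQ, Polynomial.eval_mul, Polynomial.eval_C, Polynomial.eval_X, Polynomial.eval_pow,
    Polynomial.eval_add, mul_one, mul_zero, zero_mul, mul_neg] at e1 e2
  have hk1 : a + κ = 0 := by
    rcases mul_eq_zero.mp e1 with h3 | h3
    · exact absurd h3 ha
    · exact pow_eq_zero_iff_of_pos_aux h3
  have hk2 : -a + κ = 0 := by
    rcases mul_eq_zero.mp e2 with h3 | h3
    · exact absurd (neg_eq_zero.mp h3) ha
    · exact pow_eq_zero_iff_of_pos_aux h3
  have : (2 : k) * a = 0 := by linear_combination hk1 - hk2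
  rcases mul_eq_zero.mp this with h3 | h3
  · exact h2 h3
  · exact ha h3

end Injective

section Delta

theorem thirtysix_dvd_aux (d : ℤ) : (36 : ℤ) ∣ 10 * d ^ 7 + 7 * d ^ 5 - 5 * d ^ 3 - 12 * d := by
  have h : ∀ x : ZMod 36, 10 * x ^ 7 + 7 * x ^ 5 - 5 * x ^ 3 - 12 * x = 0 := by decide
  have := h (d : ZMod 36)
  have h2 : ((10 * d ^ 7 + 7 * d ^ 5 - 5 * d ^ 3 - 12 * d : ℤ) : ZMod 36) = 0 := by
    push_cast
    exact this
  exact (ZMod.intCast_zmod_eq_zero_iff_dvd _ 36).mp h2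

theorem three_dvd_aux (d : ℤ) : (3 : ℤ) ∣ d ^ 3 - d := by
  have h : ∀ x : ZMod 3, x ^ 3 - x = 0 := by decide
  have := h (d : ZMod 3)
  have h2 : ((d ^ 3 - d : ℤ) : ZMod 3) = 0 := by
    push_cast
    exact this
  exact (ZMod.intCast_zmod_eq_zero_iff_dvd _ 3).mp h2

theorem sigma_cast (k n : ℕ) :
    ((ArithmeticFunction.sigma k n : ℕ) : ℤ) = ∑ d ∈ n.divisors, ((d : ℤ)) ^ k := by
  rw [ArithmeticFunction.sigma_apply]
  push_cast
  rfl

/-- `-5 S₃ + 7 S₅ + 10 S₇ = 12 S₁ + 36 V`. -/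
theorem exists_V : ∃ V : PowerSeries ℤ,
    -5 * sigSeries 3 + 7 * sigSeries 5 + 10 * sigSeries 7 = 12 * sigSeries 1 + 36 * V := by
  have hdiv : ∀ n : ℕ, (36 : ℤ) ∣ -5 * ((ArithmeticFunction.sigma 3 n : ℕ) : ℤ) +
      7 * ((ArithmeticFunction.sigma 5 n : ℕ) : ℤ) + 10 * ((ArithmeticFunction.sigma 7 n : ℕ) : ℤ) -
      12 * ((ArithmeticFunction.sigma 1 n : ℕ) : ℤ) := by
    intro n
    rw [sigma_cast, sigma_cast, sigma_cast, sigma_cast]
    have : -5 * ∑ d ∈ n.divisors, ((d : ℤ)) ^ 3 + 7 * ∑ d ∈ n.divisors, ((d : ℤ)) ^ 5 +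
        10 * ∑ d ∈ n.divisors, ((d : ℤ)) ^ 7 - 12 * ∑ d ∈ n.divisors, ((d : ℤ)) ^ 1 =
        ∑ d ∈ n.divisors, (10 * (d : ℤ) ^ 7 + 7 * (d : ℤ) ^ 5 - 5 * (d : ℤ) ^ 3 - 12 * (d : ℤ)) := by
      simp only [Finset.mul_sum, ← Finset.sum_add_distrib, ← Finset.sum_sub_distrib]
      refine Finset.sum_congr rfl fun d _ => ?_
      ring
    rw [this]
    exact Finset.dvd_sum fun d _ => thirtysix_dvd_aux d
  refine ⟨PowerSeries.mk fun n => (-5 * ((ArithmeticFunction.sigma 3 n : ℕ) : ℤ) +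
      7 * ((ArithmeticFunction.sigma 5 n : ℕ) : ℤ) + 10 * ((ArithmeticFunction.sigma 7 n : ℕ) : ℤ) -
      12 * ((ArithmeticFunction.sigma 1 n : ℕ) : ℤ)) / 36, ?_⟩
  ext n
  have e5 : (-5 : PowerSeries ℤ) = C (-5 : ℤ) := by simp
  have e7 : (7 : PowerSeries ℤ) = C (7 : ℤ) := by simp
  have e10 : (10 : PowerSeries ℤ) = C (10 : ℤ) := by simp
  have e12 : (12 : PowerSeries ℤ) = C (12 : ℤ) := by simp
  have e36 : (36 : PowerSeries ℤ) = C (36 : ℤ) := by simp
  rw [e5, e7, e10, e12, e36]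
  simp only [map_add, PowerSeries.coeff_C_mul, coeff_sigSeries, PowerSeries.coeff_mk]
  rw [Int.mul_ediv_cancel' (hdiv n)]
  ring

/-- `S₃ = S₁ + 3 Z`. -/
theorem exists_Z : ∃ Z : PowerSeries ℤ, sigSeries 3 = sigSeries 1 + 3 * Z := by
  have hdiv : ∀ n : ℕ, (3 : ℤ) ∣ ((ArithmeticFunction.sigma 3 n : ℕ) : ℤ) -
      ((ArithmeticFunction.sigma 1 n : ℕ) : ℤ) := by
    intro n
    rw [sigma_cast, sigma_cast, ← Finset.sum_sub_distrib]
    refine Finset.dvd_sum fun d _ => ?_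
    have := three_dvd_aux (d : ℤ)
    simpa using this
  refine ⟨PowerSeries.mk fun n => (((ArithmeticFunction.sigma 3 n : ℕ) : ℤ) -
      ((ArithmeticFunction.sigma 1 n : ℕ) : ℤ)) / 3, ?_⟩
  ext n
  have e3 : (3 : PowerSeries ℤ) = C (3 : ℤ) := by simp
  rw [e3]
  simp only [map_add, PowerSeries.coeff_C_mul, coeff_sigSeries, PowerSeries.coeff_mk]
  rw [Int.mul_ediv_cancel' (hdiv n)]
  ring

/-- **`Δ ≡ S - S³ mod 3`** from `E₄² = E₈` and `1728 Δ = E₄³ - E₆²`. -/
theorem delta_eq_sub_cube_add (h8 : e4 ^ 2 = e8) (δ : PowerSeries ℤ)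
    (hδ : C (1728 : ℤ) * δ = e4 ^ 3 - e6 ^ 2) :
    ∃ W : PowerSeries ℤ, δ = sigSeries 1 - sigSeries 1 ^ 3 + 3 * W := by
  obtain ⟨V, hV⟩ := exists_V
  obtain ⟨Z, hZ⟩ := exists_Z
  have e240 : (C (240 : ℤ) : PowerSeries ℤ) = 240 := by simp
  have e504 : (C (504 : ℤ) : PowerSeries ℤ) = 504 := by simp
  have e480 : (C (480 : ℤ) : PowerSeries ℤ) = 480 := by simp
  have e1728 : (C (1728 : ℤ) : PowerSeries ℤ) = 1728 := by simp
  rw [e4, e6, e240, e504, e1728] at hδ
  rw [e4, e8, e240, e480] at h8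
  set s1 := sigSeries 1
  set s3 := sigSeries 3
  set s5 := sigSeries 5
  set s7 := sigSeries 7
  refine ⟨2667 * s1 ^ 3 + V + 8000 * (3 * s1 ^ 2 * Z + 9 * s1 * Z ^ 2 + 9 * Z ^ 3) - 49 * s5 ^ 2, ?_⟩
  have hmain : (1728 : PowerSeries ℤ) * δ = 1728 * (s1 - s1 ^ 3 + 3 * (2667 * s1 ^ 3 + V +
      8000 * (3 * s1 ^ 2 * Z + 9 * s1 * Z ^ 2 + 9 * Z ^ 3) - 49 * s5 ^ 2)) := by
    linear_combination hδ + 3 * h8 + 144 * hV +
      13824000 * (s3 ^ 2 + s3 * (s1 + 3 * Z) + (s1 + 3 * Z) ^ 2) * hZ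
  have hne : (1728 : PowerSeries ℤ) ≠ 0 := by
    intro h0
    have := congrArg (PowerSeries.coeff 0) h0
    rw [← e1728, PowerSeries.coeff_zero_C, map_zero] at this
    norm_num at this
  exact mul_left_cancel₀ hne hmain

end Delta

end Fermat.Agent.S16.TraceCases
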