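import Fermat.Agent.S16.TraceCases.Basic

/-!
# T16: `E₄² = E₈` as an identity of integer power series (helper32)

`e4_sq_eq_e8 : e4 ^ 2 = e8` in `ℤ⟦X⟧`, from `dim M₈(SL₂(ℤ)) = 1` and Mathlib's `q`-expansion of
the Eisenstein series. Mathlib only.
-/

set_option autoImplicit false

open UpperHalfPlane ModularForm ModularFormClass EisensteinSeries
open scoped MatrixGroups ModularForm Manifold ArithmeticFunction.sigma

namespace Fermat.Agent.S16.TraceCases

open PowerSeries

/-- The Eisenstein series `E₈`. -/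
noncomputable abbrev E8form : ModularForm 𝒮ℒ 8 := E (by norm_num : 3 ≤ 8)

theorem levelOne_weight_eight_rank_one : Module.rank ℂ (ModularForm 𝒮ℒ 8) = 1 :=
  (ModularForm.rank_eq_one_add_rank_cuspForm (k := 8) (by norm_num) ⟨4, rfl⟩).trans
    ((congrArg (1 + ·) (CuspForm.rank_eq_zero_of_weight_lt_twelve (by norm_num))).trans
      (by norm_cast))

theorem qExpansion_E4_eq : qExpansion 1 E₄ = e4.map (Int.castRingHom ℂ) := by
  ext n
  rw [E_qExpansion_coeff _ ⟨2, rfl⟩, PowerSeries.coeff_map, coeff_e4]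
  have hb : bernoulli 4 = -1 / 30 := by decide +kernel
  by_cases hn : n = 0
  · simp [hn]
  · simp only [if_neg hn, hb, eq_intCast]
    push_cast
    ring

theorem qExpansion_E8_eq : qExpansion 1 E8form = e8.map (Int.castRingHom ℂ) := by
  ext n
  rw [E_qExpansion_coeff _ ⟨4, rfl⟩, PowerSeries.coeff_map]
  have hb : bernoulli 8 = -1 / 30 := by decide +kernel
  have he8 : PowerSeries.coeff n e8 =
      (if n = 0 then 1 else 0) + 480 * ((ArithmeticFunction.sigma 7 n : ℕ) : ℤ) := by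
    rw [e8, map_add, PowerSeries.coeff_one, PowerSeries.coeff_C_mul, coeff_sigSeries]
  rw [he8]
  by_cases hn : n = 0
  · simp [hn]
  · simp only [if_neg hn, hb, eq_intCast]
    push_cast
    ring

/-- `E₄² = E₈` as modular forms (functions). -/
theorem E4_mul_E4_eq_E8 : (E₄.mul E₄ : ℍ → ℂ) = (E8form : ℍ → ℂ) := by
  obtain ⟨c, hc⟩ : ∃ c : ℂ, c • E8form = E₄.mul E₄ :=
    (finrank_eq_one_iff_of_nonzero' E8form (E_ne_zero _ ⟨4, rfl⟩)).mp
      (Module.rank_eq_one_iff_finrank_eq_one.mp levelOne_weight_eight_rank_one) _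
  have hq : c • qExpansion 1 (E8form : ℍ → ℂ) = qExpansion 1 (E₄ : ℍ → ℂ) * qExpansion 1 (E₄ : ℍ → ℂ) := by
    rw [← ModularForm.qExpansion_mul one_pos one_mem_strictPeriods_SL E₄ E₄,
      ← ModularForm.qExpansion_smul one_pos one_mem_strictPeriods_SL c E8form,
      show (c • E8form : ℍ → ℂ) = (E₄.mul E₄) from congrArg DFunLike.coe hc]
  have h0 := congrArg (PowerSeries.coeff 0) hq
  rw [PowerSeries.coeff_smul, E_qExpansion_coeff_zero _ ⟨4, rfl⟩, PowerSeries.coeff_mul] at h0
  simp only [Finset.Nat.antidiagonal_zero, Finset.sum_singleton,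
    E_qExpansion_coeff_zero (k := 4) _ ⟨2, rfl⟩, smul_eq_mul, mul_one] at h0
  rw [h0, one_smul] at hc
  rw [← hc]

/-- **`E₄² = E₈`** as integer power series. -/
theorem e4_sq_eq_e8 : e4 ^ 2 = e8 := by
  have hq : qExpansion 1 (E₄ : ℍ → ℂ) * qExpansion 1 (E₄ : ℍ → ℂ) = qExpansion 1 (E8form : ℍ → ℂ) := by
    rw [← ModularForm.qExpansion_mul one_pos one_mem_strictPeriods_SL E₄ E₄, E4_mul_E4_eq_E8]
  rw [qExpansion_E4_eq, qExpansion_E8_eq, ← map_mul] at hq
  ext n
  have := congrArg (PowerSeries.coeff n) hq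
  rw [PowerSeries.coeff_map, PowerSeries.coeff_map] at this
  rw [pow_two]
  simp only [eq_intCast] at this
  exact_mod_cast this

end Fermat.Agent.S16.TraceCases
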