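import Fermat.Agent.S16.TraceCases.Basic

/-!
# T16 / trace cases: the key coefficient identity (helper32)

`TraceData p g gs` packages the four trace identities (weights 2 and 4) satisfied by the
`q`-expansions `g` of `G ∈ M₂(Γ₀(p))` and `gs` of `G|W_p`.
-/

set_option autoImplicit false

namespace Fermat.Agent.S16.TraceCases

open PowerSeries Finset

/-- The trace identities for `g = q-exp(G)`, `gs = q-exp(G|W_p)`, `G ∈ M₂(Γ₀(p))` with integral
`q`-expansions: `Tr G = 0`, `Tr (G|W) = 0`, `Tr G² ∈ ℂ E₄`, `Tr (G|W)² ∈ ℂ E₄`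
(multiplied by `p` to clear the denominator). -/
structure TraceData (p : ℕ) (g gs : PowerSeries ℤ) : Prop where
  h1 : Uop p gs = -g
  h1' : Uop p g = -gs
  h2 : ∃ lam : ℤ, C (p : ℤ) * g ^ 2 + Uop p (gs ^ 2) = C lam * e4
  h2' : ∃ lam : ℤ, C (p : ℤ) * gs ^ 2 + Uop p (g ^ 2) = C lam * e4

theorem TraceData.symm {p : ℕ} {g gs : PowerSeries ℤ} (h : TraceData p g gs) :
    TraceData p gs g :=
  ⟨h.h1', h.h1, h.h2', h.h2⟩

/-- A decomposition `g = c + m H`, `gs = -c + m Hs` compatible with `U_p`. -/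
structure Decomp (p : ℕ) (g gs : PowerSeries ℤ) (c m : ℤ) (H Hs : PowerSeries ℤ) : Prop where
  hg : g = C c + C m * H
  hgs : gs = -C c + C m * Hs
  hH0 : PowerSeries.coeff 0 H = 0
  hHs0 : PowerSeries.coeff 0 Hs = 0
  hU : Uop p Hs = -H
  hU' : Uop p H = -Hs

theorem Decomp.symm {p : ℕ} {g gs : PowerSeries ℤ} {c m : ℤ} {H Hs : PowerSeries ℤ}
    (h : Decomp p g gs c m H Hs) : Decomp p gs g (-c) m Hs H :=
  ⟨by rw [h.hgs, map_neg], by rw [h.hg, map_neg, neg_neg], h.hHs0, h.hH0, h.hU', h.hU⟩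

/-- Existence of the decomposition. -/
theorem exists_decomp {p : ℕ} (hp : p ≠ 0) {g gs : PowerSeries ℤ} (h : TraceData p g gs)
    (c m : ℤ) (hm : m ≠ 0) (hc : PowerSeries.coeff 0 g = c)
    (hdiv : ∀ n : ℕ, 1 ≤ n → m ∣ PowerSeries.coeff n g) :
    ∃ H Hs : PowerSeries ℤ, Decomp p g gs c m H Hs := by
  set H : PowerSeries ℤ := PowerSeries.mk fun n => if n = 0 then 0 else PowerSeries.coeff n g / m
    with hHdef
  have hH0 : PowerSeries.coeff 0 H = 0 := by simp [hHdef]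
  have hg : g = C c + C m * H := by
    ext n
    rw [map_add, PowerSeries.coeff_C_mul, PowerSeries.coeff_C, hHdef, PowerSeries.coeff_mk]
    by_cases hn : n = 0
    · subst hn; simp [hc]
    · rw [if_neg hn, if_neg hn, zero_add]
      exact (Int.mul_ediv_cancel' (hdiv n (Nat.one_le_iff_ne_zero.mpr hn))).symm
  set Hs : PowerSeries ℤ := -Uop p H with hHsdef
  have hgs : gs = -C c + C m * Hs := by
    have := h.h1'
    rw [hg, Uop_add, Uop_C p hp, Uop_C_mul] at this
    rw [hHsdef, mul_neg, ← neg_add, this, neg_neg]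
  have hHs0 : PowerSeries.coeff 0 Hs = 0 := by
    rw [hHsdef, map_neg, coeff_Uop, mul_zero, hH0, neg_zero]
  have hU : Uop p Hs = -H := by
    have := h.h1
    rw [hgs, hg, Uop_add, Uop_neg, Uop_C p hp, Uop_C_mul, neg_add] at this
    have h2 : C m * Uop p Hs = C m * (-H) := by
      rw [mul_neg]
      exact add_left_cancel this
    have hCm : (C m : PowerSeries ℤ) ≠ 0 := by
      intro h0
      apply hm
      have := congrArg (PowerSeries.coeff 0) h0
      simpa using this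
    exact mul_left_cancel₀ hCm h2
  have hU' : Uop p H = -Hs := by rw [hHsdef, neg_neg]
  exact ⟨H, Hs, ⟨hg, hgs, hH0, hHs0, hU, hU'⟩⟩

/-- The key coefficient identity obtained from `Tr G² = λ E₄`. -/
theorem key_identity {p : ℕ} (hp : p ≠ 0) {g gs : PowerSeries ℤ} (h : TraceData p g gs)
    {c m : ℤ} {H Hs : PowerSeries ℤ} (d : Decomp p g gs c m H Hs) (n : ℕ) (hn : 1 ≤ n) :
    2 * c * m * ((p : ℤ) + 1) * PowerSeries.coeff n H +
      m ^ 2 * ((p : ℤ) * PowerSeries.coeff n (H ^ 2) + PowerSeries.coeff (p * n) (Hs ^ 2)) =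
      ((p : ℤ) + 1) * c ^ 2 * 240 * ((ArithmeticFunction.sigma 3 n : ℕ) : ℤ) := by
  obtain ⟨lam, hlam⟩ := h.h2
  have hg2 : g ^ 2 = C (c ^ 2) + C (2 * c * m) * H + C (m ^ 2) * H ^ 2 := by
    rw [d.hg]
    simp only [map_mul, map_pow, map_ofNat]
    ring
  have hgs2 : gs ^ 2 = C (c ^ 2) - C (2 * c * m) * Hs + C (m ^ 2) * Hs ^ 2 := by
    rw [d.hgs]
    simp only [map_mul, map_pow, map_ofNat]
    ring
  have hUgs2 : Uop p (gs ^ 2) = C (c ^ 2) + C (2 * c * m) * H + C (m ^ 2) * Uop p (Hs ^ 2) := by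
    rw [hgs2, Uop_add, Uop_sub, Uop_C p hp, Uop_C_mul, Uop_C_mul, d.hU]
    ring
  have hH2_0 : PowerSeries.coeff 0 (H ^ 2) = 0 := by
    rw [pow_two, PowerSeries.coeff_mul]; simp [d.hH0]
  have hHs2_0 : PowerSeries.coeff 0 (Hs ^ 2) = 0 := by
    rw [pow_two, PowerSeries.coeff_mul]; simp [d.hHs0]
  rw [hg2, hUgs2] at hlam
  -- constant coefficient
  have h0 := congrArg (PowerSeries.coeff 0) hlam
  simp only [map_add, PowerSeries.coeff_C_mul, coeff_Uop, mul_zero, hH2_0, hHs2_0, d.hH0,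
    PowerSeries.coeff_zero_C, coeff_e4, if_true, ArithmeticFunction.map_zero, Nat.cast_zero,
    add_zero] at h0
  have hlam' : lam = ((p : ℤ) + 1) * c ^ 2 := by
    linarith [h0]
  -- coefficient `n`
  have h1 := congrArg (PowerSeries.coeff n) hlam
  have hn0 : n ≠ 0 := Nat.one_le_iff_ne_zero.mp hn
  simp only [map_add, PowerSeries.coeff_C_mul, coeff_Uop, coeff_e4, if_neg hn0,
    PowerSeries.coeff_C, zero_add] at h1
  rw [hlam'] at h1
  linarith [h1]

end Fermat.Agent.S16.TraceCases
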