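import Mathlib

/-!
# T16 / trace cases: basic formal power series tools (helper32)

`Uop p` is the operator `U_p` on formal power series, `(U_p f)_n = f_{pn}`.
`sigSeries k` is `∑ σ_k(n) X^n`, `e4` is the `q`-expansion of `E₄` with integer coefficients.
Mathlib only.
-/

set_option autoImplicit false

namespace Fermat.Agent.S16.TraceCases

open PowerSeries Finset

/-- The operator `U_p` on formal power series: `(U_p f)_n = f_{p n}`. -/
noncomputable def Uop {R : Type*} [Semiring R] (p : ℕ) (f : PowerSeries R) : PowerSeries R :=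
  PowerSeries.mk fun n => PowerSeries.coeff (p * n) f

section Uop

variable {R : Type*} [CommRing R] (p : ℕ)

@[simp] theorem coeff_Uop (f : PowerSeries R) (n : ℕ) :
    PowerSeries.coeff n (Uop p f) = PowerSeries.coeff (p * n) f := by
  simp [Uop]

theorem Uop_add (f g : PowerSeries R) : Uop p (f + g) = Uop p f + Uop p g := by
  ext n; simp

theorem Uop_sub (f g : PowerSeries R) : Uop p (f - g) = Uop p f - Uop p g := by
  ext n; simp

theorem Uop_neg (f : PowerSeries R) : Uop p (-f) = -Uop p f := by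
  ext n; simp

theorem Uop_zero : Uop p (0 : PowerSeries R) = 0 := by
  ext n; simp

theorem Uop_C_mul (a : R) (f : PowerSeries R) : Uop p (C a * f) = C a * Uop p f := by
  ext n; simp

theorem Uop_C (hp : p ≠ 0) (a : R) : Uop p (C a : PowerSeries R) = C a := by
  ext n
  rw [coeff_Uop, coeff_C, coeff_C]
  by_cases hn : n = 0
  · simp [hn]
  · have : p * n ≠ 0 := Nat.mul_ne_zero hp hn
    rw [if_neg hn, if_neg this]

end Uop

/-- The power series `∑_{n ≥ 1} σ_k(n) X^n` with integer coefficients. -/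
noncomputable def sigSeries (k : ℕ) : PowerSeries ℤ :=
  PowerSeries.mk fun n => ((ArithmeticFunction.sigma k n : ℕ) : ℤ)

@[simp] theorem coeff_sigSeries (k n : ℕ) :
    PowerSeries.coeff n (sigSeries k) = ((ArithmeticFunction.sigma k n : ℕ) : ℤ) := by
  simp [sigSeries]

/-- The `q`-expansion of `E₄`: `1 + 240 ∑ σ₃(n) qⁿ`. -/
noncomputable def e4 : PowerSeries ℤ := 1 + C (240 : ℤ) * sigSeries 3

/-- The `q`-expansion of `E₆`: `1 - 504 ∑ σ₅(n) qⁿ`. -/
noncomputable def e6 : PowerSeries ℤ := 1 - C (504 : ℤ) * sigSeries 5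

/-- The `q`-expansion of `E₈`: `1 + 480 ∑ σ₇(n) qⁿ`. -/
noncomputable def e8 : PowerSeries ℤ := 1 + C (480 : ℤ) * sigSeries 7

theorem coeff_zero_sigSeries (k : ℕ) : PowerSeries.coeff 0 (sigSeries k) = 0 := by
  simp

theorem coeff_e4 (n : ℕ) :
    PowerSeries.coeff n e4 = (if n = 0 then 1 else 0) + 240 * ((ArithmeticFunction.sigma 3 n : ℕ) : ℤ) := by
  rw [e4, map_add, PowerSeries.coeff_one, PowerSeries.coeff_C_mul, coeff_sigSeries]

theorem coeff_one_sigSeries (k : ℕ) : PowerSeries.coeff 1 (sigSeries k) = 1 := by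
  simp

theorem sigma_prime (k p : ℕ) (hp : p.Prime) :
    ((ArithmeticFunction.sigma k p : ℕ) : ℤ) = 1 + (p : ℤ) ^ k := by
  rw [ArithmeticFunction.sigma_apply, hp.sum_divisors]
  push_cast
  ring

/-- The coefficient of an odd index of a square is even. -/
theorem even_coeff_sq_of_odd (f : PowerSeries ℤ) (n : ℕ) (hn : Odd n) :
    Even (PowerSeries.coeff n (f ^ 2)) := by
  rw [pow_two, PowerSeries.coeff_mul]
  -- split the antidiagonal into `i < j` and `j < i`
  have hsplit : ∑ ij ∈ antidiagonal n, PowerSeries.coeff ij.1 f * PowerSeries.coeff ij.2 f =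
      ∑ ij ∈ (antidiagonal n).filter (fun ij => ij.1 < ij.2),
          PowerSeries.coeff ij.1 f * PowerSeries.coeff ij.2 f +
      ∑ ij ∈ (antidiagonal n).filter (fun ij => ¬ ij.1 < ij.2),
          PowerSeries.coeff ij.1 f * PowerSeries.coeff ij.2 f :=
    (Finset.sum_filter_add_sum_filter_not _ _ _).symm
  have hswap : ∑ ij ∈ (antidiagonal n).filter (fun ij => ¬ ij.1 < ij.2),
          PowerSeries.coeff ij.1 f * PowerSeries.coeff ij.2 f =
      ∑ ij ∈ (antidiagonal n).filter (fun ij => ij.1 < ij.2),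
          PowerSeries.coeff ij.1 f * PowerSeries.coeff ij.2 f := by
    refine Finset.sum_nbij' (fun ij => ij.swap) (fun ij => ij.swap) ?_ ?_ ?_ ?_ ?_
    · intro ij hij
      simp only [mem_filter, Finset.HasAntidiagonal.mem_antidiagonal, Prod.fst_swap, Prod.snd_swap] at hij ⊢
      obtain ⟨h1, h2⟩ := hij
      refine ⟨by omega, ?_⟩
      rcases hn with ⟨m, hm⟩
      omega
    · intro ij hij
      simp only [mem_filter, Finset.HasAntidiagonal.mem_antidiagonal, Prod.fst_swap, Prod.snd_swap] at hij ⊢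
      obtain ⟨h1, h2⟩ := hij
      exact ⟨by omega, by omega⟩
    · intro ij _; simp
    · intro ij _; simp
    · intro ij _; simp [mul_comm]
  rw [hsplit, hswap]
  exact ⟨_, rfl⟩

/-- Frobenius mod `2` on integer power series: `(f²)_n ≡ f_{n/2}` for even `n` and `≡ 0` for
odd `n`. -/
theorem coeff_sq_modEq_two (f : PowerSeries ℤ) (n : ℕ) :
    PowerSeries.coeff n (f ^ 2) ≡ (if Even n then PowerSeries.coeff (n / 2) f else 0) [ZMOD 2] := by
  by_cases hn : Even n
  · rw [if_pos hn]
    obtain ⟨m, hm⟩ := hn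
    have hm' : n / 2 = m := by omega
    rw [hm', pow_two, PowerSeries.coeff_mul]
    have hsplit : ∑ ij ∈ antidiagonal n, PowerSeries.coeff ij.1 f * PowerSeries.coeff ij.2 f =
        ∑ ij ∈ (antidiagonal n).filter (fun ij => ij.1 < ij.2),
            PowerSeries.coeff ij.1 f * PowerSeries.coeff ij.2 f +
        ∑ ij ∈ (antidiagonal n).filter (fun ij => ¬ ij.1 < ij.2),
            PowerSeries.coeff ij.1 f * PowerSeries.coeff ij.2 f :=
      (Finset.sum_filter_add_sum_filter_not _ _ _).symm
    have hsplit2 : ∑ ij ∈ (antidiagonal n).filter (fun ij => ¬ ij.1 < ij.2),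
            PowerSeries.coeff ij.1 f * PowerSeries.coeff ij.2 f =
        ∑ ij ∈ ((antidiagonal n).filter (fun ij => ¬ ij.1 < ij.2)).filter (fun ij => ij.2 < ij.1),
            PowerSeries.coeff ij.1 f * PowerSeries.coeff ij.2 f +
        ∑ ij ∈ ((antidiagonal n).filter (fun ij => ¬ ij.1 < ij.2)).filter (fun ij => ¬ ij.2 < ij.1),
            PowerSeries.coeff ij.1 f * PowerSeries.coeff ij.2 f :=
      (Finset.sum_filter_add_sum_filter_not _ _ _).symm
    have hswap : ∑ ij ∈ ((antidiagonal n).filter (fun ij => ¬ ij.1 < ij.2)).filter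
          (fun ij => ij.2 < ij.1), PowerSeries.coeff ij.1 f * PowerSeries.coeff ij.2 f =
        ∑ ij ∈ (antidiagonal n).filter (fun ij => ij.1 < ij.2),
            PowerSeries.coeff ij.1 f * PowerSeries.coeff ij.2 f := by
      refine Finset.sum_nbij' (fun ij => ij.swap) (fun ij => ij.swap) ?_ ?_ ?_ ?_ ?_
      · intro ij hij
        simp only [mem_filter, Finset.HasAntidiagonal.mem_antidiagonal, Prod.fst_swap, Prod.snd_swap] at hij ⊢
        obtain ⟨⟨h1, h2⟩, h3⟩ := hij
        exact ⟨by omega, h3⟩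
      · intro ij hij
        simp only [mem_filter, Finset.HasAntidiagonal.mem_antidiagonal, Prod.fst_swap, Prod.snd_swap] at hij ⊢
        obtain ⟨h1, h2⟩ := hij
        exact ⟨⟨by omega, by omega⟩, h2⟩
      · intro ij _; simp
      · intro ij _; simp
      · intro ij _; simp [mul_comm]
    have hdiag : ((antidiagonal n).filter (fun ij => ¬ ij.1 < ij.2)).filter
          (fun ij => ¬ ij.2 < ij.1) = {(m, m)} := by
      ext ⟨i, j⟩
      simp only [mem_filter, Finset.HasAntidiagonal.mem_antidiagonal, mem_singleton, Prod.mk.injEq]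
      constructor
      · rintro ⟨⟨h1, h2⟩, h3⟩
        constructor <;> omega
      · rintro ⟨rfl, rfl⟩
        exact ⟨⟨by omega, by omega⟩, by omega⟩
    rw [hsplit, hsplit2, hswap, hdiag, Finset.sum_singleton]
    set A := ∑ ij ∈ (antidiagonal n).filter (fun ij => ij.1 < ij.2),
            PowerSeries.coeff ij.1 f * PowerSeries.coeff ij.2 f with hA
    set x := PowerSeries.coeff m f with hx
    have hxx : x * x ≡ x [ZMOD 2] := by
      rcases Int.emod_two_eq_zero_or_one x with h | h
      · have : x * x % 2 = 0 := by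
          rw [Int.mul_emod, h]; simp
        exact (this.trans h.symm)
      · have : x * x % 2 = 1 := by
          rw [Int.mul_emod, h]; simp
        exact (this.trans h.symm)
    calc A + (A + x * x) = 2 * A + x * x := by ring
      _ ≡ 0 + x [ZMOD 2] := by
          refine Int.ModEq.add ?_ hxx
          exact (Int.modEq_zero_iff_dvd.mpr ⟨A, rfl⟩)
      _ = x := by ring
  · rw [if_neg hn]
    have hodd : Odd n := Nat.not_even_iff_odd.mp hn
    obtain ⟨r, hr⟩ := even_coeff_sq_of_odd f n hodd
    rw [hr]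
    exact Int.modEq_zero_iff_dvd.mpr ⟨r, by ring⟩

end Fermat.Agent.S16.TraceCases
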