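import Fermat.Agent.S16.TraceCases.Key

/-!
# T16 / trace cases: the cases `ℓ = 2` (`p ≢ 7 mod 8`) and `ℓ = 3` (`p ≡ 1 mod 3`) (helper32)

From the four trace identities `TraceData p g gs` alone (no conjugates, no `q`-expansion
principle at level `p`):

* `false_of_three`  : `p ≡ 1 mod 3`, `g ≡ c mod 3`, `3 ∤ c`  ⊢ `False`;
* `false_of_eight`  : `8 ∤ p + 1`, `g ≡ c mod 8`, `c` odd ⊢ `False`;
* `false_of_four`   : `p ≡ 1 mod 4`, `g ≡ c mod 4`, `c` odd ⊢ `False`.
-/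

set_option autoImplicit false

namespace Fermat.Agent.S16.TraceCases

open PowerSeries Finset

/-- Common step: the two key identities at the coefficients `1` and `p` differ by
`240 (p+1) c² p³`, which therefore is divisible by `m²`. -/
theorem sq_dvd_of_traceData {p : ℕ} (hp : p.Prime) {g gs : PowerSeries ℤ} (h : TraceData p g gs)
    {c m : ℤ} {H Hs : PowerSeries ℤ} (d : Decomp p g gs c m H Hs) :
    ∃ D : ℤ, m ^ 2 * D = 240 * (((p : ℤ) + 1) * c ^ 2 * (p : ℤ) ^ 3) := by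
  have hp0 : p ≠ 0 := hp.ne_zero
  have k1 := key_identity hp0 h d 1 le_rfl
  have k2 := key_identity hp0 h.symm d.symm p hp.one_le
  have hHsp : PowerSeries.coeff p Hs = -PowerSeries.coeff 1 H := by
    have := congrArg (PowerSeries.coeff 1) d.hU
    rw [coeff_Uop, mul_one, map_neg] at this
    exact this
  rw [hHsp, sigma_prime 3 p hp] at k2
  have hs1 : ((ArithmeticFunction.sigma 3 1 : ℕ) : ℤ) = 1 := by simp
  rw [hs1] at k1
  refine ⟨((p : ℤ) * PowerSeries.coeff p (Hs ^ 2) + PowerSeries.coeff (p * p) (H ^ 2)) -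
    ((p : ℤ) * PowerSeries.coeff 1 (H ^ 2) + PowerSeries.coeff (p * 1) (Hs ^ 2)), ?_⟩
  linear_combination k2 - k1

/-- **Case `ℓ = 3`, `p ≡ 1 mod 3`**: there is no `G ∈ M₂(Γ₀(p))` with integral `q`-expansion
congruent to a `3`-adic unit constant modulo `3`. -/
theorem false_of_three {p : ℕ} (hp : p.Prime) (hp3 : p % 3 = 1) {g gs : PowerSeries ℤ}
    (h : TraceData p g gs) (c : ℤ) (hc3 : ¬ (3 : ℤ) ∣ c) (hc : PowerSeries.coeff 0 g = c)
    (hdiv : ∀ n : ℕ, 1 ≤ n → (3 : ℤ) ∣ PowerSeries.coeff n g) : False := by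
  obtain ⟨H, Hs, d⟩ := exists_decomp hp.ne_zero h c 3 (by norm_num) hc hdiv
  obtain ⟨D, hD⟩ := sq_dvd_of_traceData hp h d
  have h3 : (3 : ℤ) ∣ ((p : ℤ) + 1) * c ^ 2 * (p : ℤ) ^ 3 := by
    have : (3 : ℤ) * (3 * D) = 3 * (80 * (((p : ℤ) + 1) * c ^ 2 * (p : ℤ) ^ 3)) := by
      linear_combination hD
    have h2 : 3 * D = 80 * (((p : ℤ) + 1) * c ^ 2 * (p : ℤ) ^ 3) :=
      mul_left_cancel₀ (by norm_num) this
    have h4 : (3 : ℤ) ∣ 80 * (((p : ℤ) + 1) * c ^ 2 * (p : ℤ) ^ 3) := ⟨D, h2.symm⟩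
    exact (IsCoprime.dvd_of_dvd_mul_left (by norm_num : IsCoprime (3 : ℤ) 80)) h4
  have hpZ : ((p : ℤ)) % 3 = 1 := by exact_mod_cast hp3
  have hprime : Prime (3 : ℤ) := Int.prime_three
  rcases hprime.dvd_mul.mp h3 with h5 | h5
  · rcases hprime.dvd_mul.mp h5 with h6 | h6
    · omega
    · exact hc3 (hprime.dvd_of_dvd_pow h6)
  · have := hprime.dvd_of_dvd_pow h5
    omega

/-- For odd `p` the difference in `sq_dvd_of_traceData` is even (odd-index coefficients of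
squares are even). -/
theorem two_mul_sq_dvd_of_traceData {p : ℕ} (hp : p.Prime) (hp2 : p ≠ 2) {g gs : PowerSeries ℤ}
    (h : TraceData p g gs) {c m : ℤ} {H Hs : PowerSeries ℤ} (d : Decomp p g gs c m H Hs) :
    ∃ D : ℤ, 2 * m ^ 2 * D = 240 * (((p : ℤ) + 1) * c ^ 2 * (p : ℤ) ^ 3) := by
  have hp0 : p ≠ 0 := hp.ne_zero
  have hpodd : Odd p := hp.odd_of_ne_two hp2
  have k1 := key_identity hp0 h d 1 le_rfl
  have k2 := key_identity hp0 h.symm d.symm p hp.one_le
  have hHsp : PowerSeries.coeff p Hs = -PowerSeries.coeff 1 H := by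
    have := congrArg (PowerSeries.coeff 1) d.hU
    rw [coeff_Uop, mul_one, map_neg] at this
    exact this
  rw [hHsp, sigma_prime 3 p hp] at k2
  have hs1 : ((ArithmeticFunction.sigma 3 1 : ℕ) : ℤ) = 1 := by simp
  rw [hs1] at k1
  obtain ⟨a1, ha1⟩ := even_coeff_sq_of_odd H 1 odd_one
  obtain ⟨a2, ha2⟩ := even_coeff_sq_of_odd Hs (p * 1) (by rw [mul_one]; exact hpodd)
  obtain ⟨a3, ha3⟩ := even_coeff_sq_of_odd Hs p hpodd
  obtain ⟨a4, ha4⟩ := even_coeff_sq_of_odd H (p * p) (hpodd.mul hpodd)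
  rw [ha1, ha2] at k1
  rw [ha3, ha4] at k2
  refine ⟨((p : ℤ) * a3 + a4) - ((p : ℤ) * a1 + a2), ?_⟩
  linear_combination k2 - k1

/-- **Case `ℓ = 2`, `8 ∤ p + 1`** (i.e. `p ≡ 1 mod 4` or `p ≡ 3 mod 8`): there is no
`G ∈ M₂(Γ₀(p))` with integral `q`-expansion congruent to an odd constant modulo `8`. -/
theorem false_of_eight {p : ℕ} (hp : p.Prime) (hp2 : p ≠ 2) (hp8 : ¬ 8 ∣ p + 1)
    {g gs : PowerSeries ℤ} (h : TraceData p g gs) (c : ℤ) (hc2 : Odd c)
    (hc : PowerSeries.coeff 0 g = c)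
    (hdiv : ∀ n : ℕ, 1 ≤ n → (8 : ℤ) ∣ PowerSeries.coeff n g) : False := by
  obtain ⟨H, Hs, d⟩ := exists_decomp hp.ne_zero h c 8 (by norm_num) hc hdiv
  obtain ⟨D, hD⟩ := two_mul_sq_dvd_of_traceData hp hp2 h d
  have hpodd : Odd (p : ℤ) := by
    have := hp.odd_of_ne_two hp2
    exact_mod_cast this
  have hodd : Odd (15 * (c ^ 2 * (p : ℤ) ^ 3)) := by
    refine Odd.mul (by decide) (Odd.mul hc2.pow hpodd.pow)
  have h8 : (8 : ℤ) ∣ ((p : ℤ) + 1) * (15 * (c ^ 2 * (p : ℤ) ^ 3)) := by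
    refine ⟨D, ?_⟩
    have : (16 : ℤ) * (((p : ℤ) + 1) * (15 * (c ^ 2 * (p : ℤ) ^ 3))) = 16 * (8 * D) := by
      linear_combination -hD
    exact mul_left_cancel₀ (by norm_num) this
  have hcop : IsCoprime (8 : ℤ) (15 * (c ^ 2 * (p : ℤ) ^ 3)) := by
    have : IsCoprime (2 : ℤ) (15 * (c ^ 2 * (p : ℤ) ^ 3)) := Int.isCoprime_two_left.mpr hodd
    have h3 := this.pow_left (m := 3)
    norm_num at h3
    exact h3
  have h9 : (8 : ℤ) ∣ (p : ℤ) + 1 := hcop.dvd_of_dvd_mul_right h8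
  apply hp8
  exact_mod_cast h9

/-- **Bootstrap**: for `p ≡ 1 mod 4`, a form congruent to an odd constant modulo `4` is
congruent to it modulo `8`. -/
theorem eight_dvd_of_four {p : ℕ} (hp : p.Prime) (hp4 : p % 4 = 1)
    {g gs : PowerSeries ℤ} (h : TraceData p g gs) (c : ℤ) (hc2 : Odd c)
    (hc : PowerSeries.coeff 0 g = c)
    (hdiv : ∀ n : ℕ, 1 ≤ n → (4 : ℤ) ∣ PowerSeries.coeff n g) :
    ∀ n : ℕ, 1 ≤ n → (8 : ℤ) ∣ PowerSeries.coeff n g := by
  obtain ⟨H, Hs, d⟩ := exists_decomp hp.ne_zero h c 4 (by norm_num) hc hdiv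
  intro n hn
  have hn0 : n ≠ 0 := Nat.one_le_iff_ne_zero.mp hn
  have k1 := key_identity hp.ne_zero h d n hn
  -- Frobenius: `p (H²)_n + (Hs²)_{pn}` is even
  have hpodd : Odd p := by
    rcases Nat.even_or_odd p with he | ho
    · exfalso; obtain ⟨r, hr⟩ := he; omega
    · exact ho
  have hev : (2 : ℤ) ∣ (p : ℤ) * PowerSeries.coeff n (H ^ 2) + PowerSeries.coeff (p * n) (Hs ^ 2) := by
    have f1 := coeff_sq_modEq_two H n
    have f2 := coeff_sq_modEq_two Hs (p * n)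
    by_cases hne : Even n
    · rw [if_pos hne] at f1
      have hpne : Even (p * n) := hne.mul_left p
      rw [if_pos hpne] at f2
      obtain ⟨r, hr⟩ := hne
      have e1 : n / 2 = r := by omega
      have e2 : p * n / 2 = p * r := by
        rw [hr, ← two_mul, mul_left_comm, Nat.mul_div_cancel_left _ (by norm_num : 0 < 2)]
      rw [e1] at f1
      rw [e2] at f2
      have hU := congrArg (PowerSeries.coeff r) d.hU
      rw [coeff_Uop, map_neg] at hU
      rw [hU] at f2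
      have hpz : ((p : ℤ)) ≡ 1 [ZMOD 2] := by
        have : (p : ℤ) % 2 = 1 := by
          obtain ⟨s, hs⟩ := hpodd
          omega
        exact this
      have := (hpz.mul f1).add f2
      have h0 : (1 * PowerSeries.coeff r H + -PowerSeries.coeff r H) = 0 := by ring
      rw [h0] at this
      exact Int.modEq_zero_iff_dvd.mp this
    · rw [if_neg hne] at f1
      have hpne : ¬ Even (p * n) := by
        rw [Nat.even_mul]
        push Not
        exact ⟨Nat.not_even_iff_odd.mpr hpodd, hne⟩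
      rw [if_neg hpne] at f2
      have hpz : ((p : ℤ)) ≡ (p : ℤ) [ZMOD 2] := Int.ModEq.refl _
      have := (hpz.mul f1).add f2
      rw [mul_zero, add_zero] at this
      exact Int.modEq_zero_iff_dvd.mp this
  obtain ⟨E, hE⟩ := hev
  rw [hE] at k1
  -- `p + 1 = 2 k`, `k` odd
  obtain ⟨k, hk, hkodd⟩ : ∃ k : ℤ, (p : ℤ) + 1 = 2 * k ∧ Odd k := by
    refine ⟨((p : ℤ) + 1) / 2, ?_, ?_⟩
    · have : ((p : ℤ)) % 4 = 1 := by exact_mod_cast hp4
      omega
    · have : ((p : ℤ)) % 4 = 1 := by exact_mod_cast hp4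
      rw [Int.odd_iff]
      omega
  rw [hk] at k1
  -- `c k H_n + 2 E = 30 k c² σ₃(n)`
  have k3 : c * k * PowerSeries.coeff n H + 2 * E =
      30 * (k * c ^ 2 * ((ArithmeticFunction.sigma 3 n : ℕ) : ℤ)) := by
    have : (16 : ℤ) * (c * k * PowerSeries.coeff n H + 2 * E) =
        16 * (30 * (k * c ^ 2 * ((ArithmeticFunction.sigma 3 n : ℕ) : ℤ))) := by
      linear_combination k1
    exact mul_left_cancel₀ (by norm_num) this
  have hHeven : Even (PowerSeries.coeff n H) := by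
    have he : Even (c * k * PowerSeries.coeff n H) := by
      have : c * k * PowerSeries.coeff n H =
          2 * (15 * (k * c ^ 2 * ((ArithmeticFunction.sigma 3 n : ℕ) : ℤ)) - E) := by
        linear_combination k3
      exact ⟨15 * (k * c ^ 2 * ((ArithmeticFunction.sigma 3 n : ℕ) : ℤ)) - E, by rw [this]; ring⟩
    rcases Int.even_mul.mp he with h1 | h1
    · exfalso
      rcases Int.even_mul.mp h1 with h2 | h2
      · exact (Int.not_even_iff_odd.mpr hc2) h2
      · exact (Int.not_even_iff_odd.mpr hkodd) h2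
    · exact h1
  obtain ⟨r, hr⟩ := hHeven
  have hgn : PowerSeries.coeff n g = 4 * PowerSeries.coeff n H := by
    rw [d.hg, map_add, PowerSeries.coeff_C_mul, PowerSeries.coeff_C, if_neg hn0, zero_add]
  exact ⟨r, by rw [hgn, hr]; ring⟩

/-- **Case `ℓ = 2`, `p ≡ 1 mod 4`**: there is no `G ∈ M₂(Γ₀(p))` with integral `q`-expansion
congruent to an odd constant modulo `4`. -/
theorem false_of_four {p : ℕ} (hp : p.Prime) (hp4 : p % 4 = 1)
    {g gs : PowerSeries ℤ} (h : TraceData p g gs) (c : ℤ) (hc2 : Odd c)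
    (hc : PowerSeries.coeff 0 g = c)
    (hdiv : ∀ n : ℕ, 1 ≤ n → (4 : ℤ) ∣ PowerSeries.coeff n g) : False := by
  have h8 := eight_dvd_of_four hp hp4 h c hc2 hc hdiv
  refine false_of_eight hp ?_ ?_ h c hc2 hc h8
  · rintro rfl; omega
  · omega

end Fermat.Agent.S16.TraceCases
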