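import Fermat.Agent.S16.Conj.Trace
import Fermat.Agent.S16.TraceCases.Cases
import Fermat.Agent.S16.TraceCases.E8

/-!
# T16 / trace cases: from modular forms to `TraceData` (helper32)

`exists_traceData`: for `G ∈ M₂(Γ₀(p))` whose `q`-expansion is the image of `g : ℤ⟦X⟧`, the pair
`(g, gs := -U_p g)` satisfies the four trace identities `TraceData p g gs`.
Built on helper16's `Conj/Trace.lean` (trace formula in all weights, `G|W = -U_p G`).
-/

set_option autoImplicit false

open UpperHalfPlane ModularForm ModularFormClass EisensteinSeries CongruenceSubgroup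
open scoped MatrixGroups ModularForm Manifold

namespace Fermat.Agent.S16.TraceCases

open Fermat.Agent.S16.Conj

variable {p : ℕ} [Fact p.Prime]

theorem levelOne_weight_four_exists (T : ModularForm 𝒮ℒ 4) : ∃ lam : ℂ, lam • E₄ = T :=
  (finrank_eq_one_iff_of_nonzero' E₄ (E_ne_zero _ ⟨2, rfl⟩)).mp
    (Module.rank_eq_one_iff_finrank_eq_one.mp ModularForm.levelOne_weight_four_rank_one) _

/-- The weight-4 trace identity over `ℂ`:
`g² + p⁻¹ U_p(gs²) = λ E₄` with `g = qExp G`, `gs = qExp (G|W_p)`. -/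
theorem exists_lam (G : ModularForm (Trace.lvl p) 2) :
    ∃ lam : ℂ, qExpansion 1 G * qExpansion 1 G +
      ((p : ℂ)⁻¹) • Trace.Uop p (qExpansion 1 (Trace.frickeMF G) * qExpansion 1 (Trace.frickeMF G))
        = lam • qExpansion 1 E₄ := by
  have hp0 : (p : ℂ) ≠ 0 := Nat.cast_ne_zero.mpr (Fact.out : p.Prime).ne_zero
  set F : ModularForm (Trace.lvl p) (2 + 2) := G.mul G with hF
  obtain ⟨lam, hlam⟩ := levelOne_weight_four_exists (Trace.traceMF F)
  refine ⟨lam, ?_⟩
  have h1 := Trace.qExpansion_traceMF F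
  -- `qExp F = g * g`
  have hFq : qExpansion 1 F = qExpansion 1 G * qExpansion 1 G := by
    have : (F : ℍ → ℂ) = (G : ℍ → ℂ) * (G : ℍ → ℂ) := by rw [hF]; rfl
    rw [this]
    exact ModularForm.qExpansion_mul_coe one_pos Trace.one_mem_strictPeriods_lvl G G
  -- `qExp (F|W) = p • gs * gs`
  have hWq : qExpansion 1 (Trace.frickeMF F) =
      (p : ℂ) • (qExpansion 1 (Trace.frickeMF G) * qExpansion 1 (Trace.frickeMF G)) := by
    have hcoe : (Trace.frickeMF F : ℍ → ℂ) =
        (p : ℂ) • ((Trace.frickeMF G : ℍ → ℂ) * (Trace.frickeMF G : ℍ → ℂ)) := by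
      rw [Trace.coe_frickeMF, Trace.coe_frickeMF]
      have : (F : ℍ → ℂ) = (G : ℍ → ℂ) * (G : ℍ → ℂ) := by rw [hF]; rfl
      rw [this, ModularForm.mul_slash, Trace.det_frickeMatrix, abs_of_nonneg (Nat.cast_nonneg p)]
      ext z
      simp [Pi.smul_apply]
    rw [hcoe]
    have hmul : ((Trace.frickeMF G : ℍ → ℂ) * (Trace.frickeMF G : ℍ → ℂ)) =
        (((Trace.frickeMF G).mul (Trace.frickeMF G) : ModularForm (Trace.lvl p) (2 + 2)) : ℍ → ℂ) :=
      rfl
    rw [hmul]
    have h3 := ModularForm.qExpansion_smul one_pos (Trace.one_mem_strictPeriods_lvl (p := p))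
      (p : ℂ) ((Trace.frickeMF G).mul (Trace.frickeMF G))
    rw [h3, ← hmul]
    congr 1
    exact ModularForm.qExpansion_mul_coe one_pos Trace.one_mem_strictPeriods_lvl
      (Trace.frickeMF G) (Trace.frickeMF G)
  rw [hFq, hWq, Trace.Uop_smul] at h1
  have hE : qExpansion 1 (Trace.traceMF F) = lam • qExpansion 1 E₄ := by
    rw [← hlam]
    exact ModularForm.qExpansion_smul one_pos one_mem_strictPeriods_SL lam E₄
  rw [hE] at h1
  rw [h1, smul_smul]
  congr 2
  have : ((2 : ℤ) - (2 + 2)) = -2 := by norm_num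
  rw [this, zpow_neg, zpow_ofNat]
  field_simp

omit [Fact p.Prime] in
/-- Conversion between the two `U_p` conventions. -/
theorem traceUop_map (g : PowerSeries ℤ) :
    Trace.Uop p (g.map (Int.castRingHom ℂ)) = (Uop p g).map (Int.castRingHom ℂ) := by
  ext n
  simp [Trace.coeff_Uop, mul_comm]

theorem map_cast_injective {a b : PowerSeries ℤ}
    (h : a.map (Int.castRingHom ℂ) = b.map (Int.castRingHom ℂ)) : a = b := by
  ext n
  have := congrArg (PowerSeries.coeff n) h
  simpa using this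

/-- The integral weight-4 identity. -/
theorem exists_lamZ (G : ModularForm (Trace.lvl p) 2) (g gs : PowerSeries ℤ)
    (hg : qExpansion 1 G = g.map (Int.castRingHom ℂ))
    (hgs : qExpansion 1 (Trace.frickeMF G) = gs.map (Int.castRingHom ℂ)) :
    ∃ lam : ℤ, PowerSeries.C (p : ℤ) * g ^ 2 + Uop p (gs ^ 2) = PowerSeries.C lam * e4 := by
  have hp0 : (p : ℂ) ≠ 0 := Nat.cast_ne_zero.mpr (Fact.out : p.Prime).ne_zero
  obtain ⟨lam, hlam⟩ := exists_lam G
  rw [hg, hgs, ← map_mul, ← map_mul, traceUop_map, qExpansion_E4_eq] at hlam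
  -- coefficientwise, multiplied by `p`
  have hco : ∀ n : ℕ, (p : ℂ) * ((PowerSeries.coeff n (g * g) : ℤ) : ℂ) +
      ((PowerSeries.coeff (p * n) (gs * gs) : ℤ) : ℂ) =
      ((p : ℂ) * lam) * ((PowerSeries.coeff n e4 : ℤ) : ℂ) := by
    intro n
    have := congrArg (PowerSeries.coeff n) hlam
    simp only [map_add, PowerSeries.coeff_map, PowerSeries.coeff_smul, coeff_Uop, eq_intCast,
      smul_eq_mul] at this
    have h3 : (p : ℂ) * (((PowerSeries.coeff n (g * g) : ℤ) : ℂ) +
        (p : ℂ)⁻¹ * ((PowerSeries.coeff (p * n) (gs * gs) : ℤ) : ℂ)) =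
        (p : ℂ) * (lam * ((PowerSeries.coeff n e4 : ℤ) : ℂ)) := by rw [this]
    rw [mul_add, ← mul_assoc, mul_inv_cancel₀ hp0, one_mul] at h3
    rw [h3]; ring
  set c0 : ℤ := (p : ℤ) * PowerSeries.coeff 0 (g * g) + PowerSeries.coeff (p * 0) (gs * gs)
    with hc0
  have he0 : PowerSeries.coeff 0 e4 = 1 := by simp [coeff_e4]
  have h0 : ((c0 : ℤ) : ℂ) = (p : ℂ) * lam := by
    have := hco 0
    rw [he0, Int.cast_one, mul_one] at this
    rw [← this, hc0]
    push_cast
    ring
  refine ⟨c0, ?_⟩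
  ext n
  have := hco n
  rw [← h0] at this
  have hZ : (p : ℤ) * PowerSeries.coeff n (g * g) + PowerSeries.coeff (p * n) (gs * gs) =
      c0 * PowerSeries.coeff n e4 := by
    exact_mod_cast this
  rw [map_add, PowerSeries.coeff_C_mul, PowerSeries.coeff_C_mul, coeff_Uop, pow_two, pow_two]
  exact hZ

/-- **The bridge**: the four trace identities for a weight-2 form on `Γ₀(p)` with integral
`q`-expansion. -/
theorem exists_traceData (G : ModularForm (Trace.lvl p) 2) (g : PowerSeries ℤ)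
    (hg : qExpansion 1 G = g.map (Int.castRingHom ℂ)) :
    ∃ gs : PowerSeries ℤ, TraceData p g gs := by
  refine ⟨-Uop p g, ?_⟩
  have hgs : qExpansion 1 (Trace.frickeMF G) = (-Uop p g).map (Int.castRingHom ℂ) := by
    rw [Trace.qExpansion_frickeMF_two, hg, traceUop_map, map_neg]
  have hUU : Uop p (Uop p g) = g := by
    apply map_cast_injective
    have := Trace.Uop_Uop_qExpansion_two G
    rw [hg, traceUop_map, traceUop_map] at this
    exact this
  refine ⟨?_, ?_, ?_, ?_⟩
  · rw [Uop_neg, hUU]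
  · rw [neg_neg]
  · exact exists_lamZ G g (-Uop p g) hg hgs
  · have hg' : qExpansion 1 (Trace.frickeMF (Trace.frickeMF G)) = g.map (Int.castRingHom ℂ) := by
      rw [Trace.frickeMF_frickeMF_two, hg]
    exact exists_lamZ (Trace.frickeMF G) (-Uop p g) g hgs hg'

end Fermat.Agent.S16.TraceCases
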