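import Fermat.Agent.S16.LocalRing
import Fermat.Agent.S16.TraceCases.ArtinSchreier
import Fermat.Agent.S16.TraceCases.E8

/-!
# T16 / U3b: the algebraic end piece (helper32)

A level one form with `3`-integral `q`-expansion cannot reduce mod `3` to
`(a S̄)(a S̄ + κ)^m` with `a ≠ 0`, where `S̄ = ∑ σ₁(n) qⁿ mod 3`.
-/

set_option autoImplicit false

open UpperHalfPlane ModularForm ModularFormClass
open scoped MatrixGroups ModularForm Manifold

namespace Fermat.Agent.S16.TraceCases

open Fermat.Agent.S23 Fermat.Agent.S16.L1 Fermat.Agent.S16.Rl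

/-- `S̄ = ∑ σ₁(n) qⁿ` over `ZMod 3`. -/
noncomputable def SbarThree : PowerSeries (ZMod 3) :=
  (sigSeries 1).map (Int.castRingHom (ZMod 3))

theorem e4_eq_E4Z : e4 = E4Z := by
  ext n
  rw [coeff_e4, coeff_E4Z]
  split_ifs with h
  · subst h; simp
  · simp

theorem e6_eq_E6Z : e6 = E6Z := by
  ext n
  rw [coeff_E6Z, e6, map_sub, PowerSeries.coeff_one, PowerSeries.coeff_C_mul, coeff_sigSeries]
  split_ifs with h
  · subst h; simp
  · simp

theorem gens_three_zero : gens (ZMod 3) 0 = 1 := by
  show E4Z.map (Int.castRingHom (ZMod 3)) = 1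
  ext n
  rw [PowerSeries.coeff_map, coeff_E4Z, PowerSeries.coeff_one]
  split_ifs with h
  · simp
  · have h240 : ((240 : ℤ) : ZMod 3) = 0 := by decide
    rw [map_mul, eq_intCast, h240, zero_mul]

theorem gens_three_one : gens (ZMod 3) 1 = 1 := by
  show E6Z.map (Int.castRingHom (ZMod 3)) = 1
  ext n
  rw [PowerSeries.coeff_map, coeff_E6Z, PowerSeries.coeff_one]
  split_ifs with h
  · simp
  · have h504 : ((-504 : ℤ) : ZMod 3) = 0 := by decide
    rw [map_mul, eq_intCast, h504, zero_mul]

theorem gens_three_two : gens (ZMod 3) 2 = SbarThree - SbarThree ^ 3 := by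
  show DeltaZ.map (Int.castRingHom (ZMod 3)) = _
  obtain ⟨W, hW⟩ := delta_eq_sub_cube_add e4_sq_eq_e8 DeltaZ
    (by rw [e4_eq_E4Z, e6_eq_E6Z]; exact DeltaZ_identity)
  rw [hW, SbarThree]
  simp only [map_add, map_sub, map_mul, map_pow]
  have : (PowerSeries.map (Int.castRingHom (ZMod 3))) (3 : PowerSeries ℤ) = 0 := by
    rw [map_ofNat]
    ext n
    have h3 : ((3 : ℕ) : PowerSeries (ZMod 3)) = 0 := by
      rw [← map_natCast (PowerSeries.C (R := ZMod 3))]
      have : ((3 : ℕ) : ZMod 3) = 0 := by decide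
      rw [this, map_zero]
    exact_mod_cast congrArg (PowerSeries.coeff n) h3
  rw [this, zero_mul, add_zero]

/-- evaluation at `(1, 1, D)` factors through one-variable polynomials -/
theorem aeval_one_one {K : Type*} [CommRing K] (D : PowerSeries K) (P : MvPolynomial (Fin 3) K) :
    MvPolynomial.aeval (![1, 1, D] : Fin 3 → PowerSeries K) P =
      Polynomial.aeval D (MvPolynomial.aeval
        (![1, 1, Polynomial.X] : Fin 3 → Polynomial K) P) := by
  have h : (Polynomial.aeval D).comp (MvPolynomial.aeval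
      (![1, 1, Polynomial.X] : Fin 3 → Polynomial K)) =
      MvPolynomial.aeval (![1, 1, D] : Fin 3 → PowerSeries K) := by
    apply MvPolynomial.algHom_ext
    intro i
    fin_cases i <;> simp
  rw [← h]
  rfl

/-- **U3b, algebraic end piece**: a level one form with `3`-integral `q`-expansion is not
congruent to `(a S̄)(a S̄ + κ)^m` mod `3` (`a ≠ 0`). -/
theorem false_of_levelOne_three (k : ℤ) (f : ℍ → ℂ) (hf : IsMF 𝒮ℒ k f)
    (hint : ∀ n : ℕ, (qExpansion 1 f).coeff n ∈ Zl 3) (a κ : ZMod 3) (ha : a ≠ 0) (m : ℕ)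
    (h : ∀ n : ℕ, red 3 ⟨(qExpansion 1 f).coeff n, hint n⟩ =
      PowerSeries.coeff n ((PowerSeries.C a * SbarThree) *
        (PowerSeries.C a * SbarThree + PowerSeries.C κ) ^ m)) : False := by
  obtain ⟨P, -, hP⟩ := exists_mvPolynomial_mod 3 k f hf hint
  have hgens : gens (ZMod 3) = ![1, 1, SbarThree - SbarThree ^ 3] := by
    funext i
    fin_cases i
    · exact gens_three_zero
    · exact gens_three_one
    · exact gens_three_two
  have hS0 : PowerSeries.coeff 0 SbarThree = 0 := by
    simp [SbarThree]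
  have hS1 : PowerSeries.coeff 1 SbarThree = 1 := by
    simp [SbarThree]
  refine false_of_AS (k := ZMod 3) (by decide) SbarThree hS0 hS1 a κ ha m
    (MvPolynomial.aeval (![1, 1, Polynomial.X] : Fin 3 → Polynomial (ZMod 3)) P) ?_
  rw [← aeval_one_one, ← hgens]
  ext n
  rw [← hP n, h n]

end Fermat.Agent.S16.TraceCases
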